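import Fermat.Agent.S13.LocFrey

/-!
# S12 / Real / Rat : a rational number which is a unit at all primes `ℓ ≠ p` is `± p ^ m`
-/

set_option autoImplicit false

namespace Fermat.Agent.S12.Real

open Fermat.Agent.S13 (Qb GQ)

theorem algebraMap_rat_eq (q : ℚ) : algebraMap ℚ Qb q = (q.num : Qb) / (q.den : Qb) := by
  conv_lhs => rw [← Rat.num_div_den q]
  rw [map_div₀, map_intCast, map_natCast]

/-- A rational number which is a unit at (one place above) every prime `ℓ ≠ p` is `± p ^ m`. -/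
theorem rat_eq_pow {p : ℕ} (hp : p.Prime) {q : ℚ} (hq : q ≠ 0)
    (h : ∀ ℓ : ℕ, ℓ.Prime → ℓ ≠ p →
      ∃ A : ValuationSubring Qb, A.LiesOverPrime ℓ ∧ A.valuation (algebraMap ℚ Qb q) = 1) :
    ∃ m : ℤ, |q| = (p : ℚ) ^ m := by
  have hden : (q.den : Qb) ≠ 0 := by exact_mod_cast q.den_nz
  have key : ∀ ℓ : ℕ, ℓ.Prime → ℓ ≠ p → ¬ ℓ ∣ q.num.natAbs ∧ ¬ ℓ ∣ q.den := by
    intro ℓ hℓ hℓp
    obtain ⟨A, hA, hv⟩ := h ℓ hℓ hℓp
    rw [algebraMap_rat_eq, map_div₀, div_eq_one_iff_eq ((Valuation.ne_zero_iff _).2 hden)] at hv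
    have h1 := (Fermat.Agent.S05.val_int A hℓ hA q.num).2
    have h2 := (Fermat.Agent.S05.val_int A hℓ hA (q.den : ℤ)).2
    rw [Int.cast_natCast] at h2
    have hiff : (ℓ : ℤ) ∣ q.num ↔ (ℓ : ℤ) ∣ (q.den : ℤ) := by rw [← h1, ← h2, hv]
    have hcop : Nat.Coprime q.num.natAbs q.den := q.reduced
    have hno : ¬ (ℓ ∣ q.num.natAbs ∧ ℓ ∣ q.den) := fun hh =>
      hℓ.one_lt.ne' (Nat.dvd_one.1 (hcop ▸ Nat.dvd_gcd hh.1 hh.2))
    rw [Int.natCast_dvd, Int.natCast_dvd_natCast] at hiff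
    exact ⟨fun hh => hno ⟨hh, hiff.1 hh⟩, fun hh => hno ⟨hiff.2 hh, hh⟩⟩
  have hn0 : q.num.natAbs ≠ 0 := Int.natAbs_ne_zero.2 (Rat.num_ne_zero.2 hq)
  have e1 := Nat.eq_prime_pow_of_unique_prime_dvd hn0 (p := p) (fun {d} hd hdn => by
    by_contra hne
    exact (key d hd hne).1 hdn)
  have e2 := Nat.eq_prime_pow_of_unique_prime_dvd q.den_nz (p := p) (fun {d} hd hdn => by
    by_contra hne
    exact (key d hd hne).2 hdn)
  refine ⟨(q.num.natAbs.primeFactorsList.length : ℤ) - (q.den.primeFactorsList.length : ℤ), ?_⟩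
  have hp0 : (p : ℚ) ≠ 0 := by exact_mod_cast hp.ne_zero
  rw [zpow_sub₀ hp0, zpow_natCast, zpow_natCast]
  have e3 : |q| = (q.num.natAbs : ℚ) / (q.den : ℚ) := by
    conv_lhs => rw [← Rat.num_div_den q]
    rw [abs_div, Nat.abs_cast, Nat.cast_natAbs, Int.cast_abs]
  rw [e3]
  congr 1
  · exact_mod_cast e1
  · exact_mod_cast e2

/-- The valuation at `A` of `± p ^ m`. -/
theorem val_of_abs_eq_pow {p : ℕ} {q : ℚ} {m : ℤ} (h : |q| = (p : ℚ) ^ m) (A : ValuationSubring Qb) :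
    A.valuation (algebraMap ℚ Qb q) = A.valuation (p : Qb) ^ m := by
  have h1 : A.valuation (algebraMap ℚ Qb |q|) = A.valuation (algebraMap ℚ Qb q) := by
    rcases abs_choice q with h | h
    · rw [h]
    · rw [h, map_neg, Valuation.map_neg]
  rw [← h1, h, map_zpow₀, map_zpow₀, map_natCast]

end Fermat.Agent.S12.Real
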