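import Fermat.Agent.S12.Real.Far
import Fermat.Agent.S12.Real.Rat

/-!
# S12 / Real / Frey : STEP 1 for the Frey curve (EXPORT `frey_real`)

`A = a^p`, `B = b^p`, `C = c^p = A + B`.  `yc² = D2(x) = x (4x - A) (x + B/4)`; the three centres `(e, κ, β)` are
`(0, -AB/16, B - A)`, `(A/4, AC/16, A + C)`, `(-B/4, BC/16, -(B + C))`; their mutual distances are `|A|/4`, `|B|/4`, `|C|/4`.
-/

set_option autoImplicit false

open WeierstrassCurve WeierstrassCurve.Affine

namespace Fermat.Agent.S12.Real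

open Fermat.Agent.S13 (Qb GQ)
open Fermat.Agent.S05 (xc yc D2 Centre)

noncomputable section

/-- `a ^ p`, `b ^ p`, `c ^ p` as rational numbers. -/
def fA (P : FreyPackage) : ℚ := (P.a : ℚ) ^ P.p
def fB (P : FreyPackage) : ℚ := (P.b : ℚ) ^ P.p
def fC (P : FreyPackage) : ℚ := (P.c : ℚ) ^ P.p

theorem fA_add_fB (P : FreyPackage) : fA P + fB P = fC P := by
  simp only [fA, fB, fC]
  exact_mod_cast P.hFLT

theorem centre_zero (P : FreyPackage) :
    Centre (P.freyCurve⁄Qb) (algebraMap ℚ Qb 0) (algebraMap ℚ Qb (-(fA P * fB P) / 16))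
      (algebraMap ℚ Qb (fB P - fA P)) := by
  apply Fermat.Agent.S13.Loc.centre_map <;>
  simp only [FreyPackage.freyCurve, WeierstrassCurve.b₂, WeierstrassCurve.b₄,
    WeierstrassCurve.b₆, WeierstrassCurve.b₈, fA, fB] <;> ring

theorem centre_A (P : FreyPackage) :
    Centre (P.freyCurve⁄Qb) (algebraMap ℚ Qb (fA P / 4)) (algebraMap ℚ Qb (fA P * fC P / 16))
      (algebraMap ℚ Qb (fA P + fC P)) := by
  rw [← fA_add_fB]
  apply Fermat.Agent.S13.Loc.centre_map <;>
  simp only [FreyPackage.freyCurve, WeierstrassCurve.b₂, WeierstrassCurve.b₄,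
    WeierstrassCurve.b₆, WeierstrassCurve.b₈, fA, fB] <;> ring

theorem centre_B (P : FreyPackage) :
    Centre (P.freyCurve⁄Qb) (algebraMap ℚ Qb (-fB P / 4)) (algebraMap ℚ Qb (fB P * fC P / 16))
      (algebraMap ℚ Qb (-(fB P + fC P))) := by
  rw [← fA_add_fB]
  apply Fermat.Agent.S13.Loc.centre_map <;>
  simp only [FreyPackage.freyCurve, WeierstrassCurve.b₂, WeierstrassCurve.b₄,
    WeierstrassCurve.b₆, WeierstrassCurve.b₈, fA, fB] <;> ring

/-- `z = max (|A|, |B|, |C|)`. -/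
def fz (P : FreyPackage) : ℚ := max (max |fA P| |fB P|) |fC P|

/-- **STEP 1 (EXPORT).** -/
theorem frey_real (P : FreyPackage) {T0 : (P.freyCurve⁄Qb).Point} (hT0 : addOrderOf T0 = P.p)
    (hstab : ∀ σ : GQ, ∃ m : ℕ, σ • T0 = m • T0) :
    ∃ e : ℚ, (e = 0 ∨ e = fA P / 4 ∨ e = -fB P / 4) ∧
      ∃ q : ℚ, Pi P.p T0 e = algebraMap ℚ Qb q ∧ (fz P / 4) ^ (P.p - 1) < |q| := by
  have hp2 : P.p ≠ 2 := by have := P.hp5; omega
  have h0 : IsCentre P.freyCurve 0 := ⟨_, _, centre_zero P⟩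
  have hA : IsCentre P.freyCurve (fA P / 4) := ⟨_, _, centre_A P⟩
  have hB : IsCentre P.freyCurve (-fB P / 4) := ⟨_, _, centre_B P⟩
  have hz : fz P = |fA P| ∨ fz P = |fB P| ∨ fz P = |fC P| := by
    unfold fz
    rcases max_choice (max |fA P| |fB P|) |fC P| with h | h
    · rcases max_choice |fA P| |fB P| with h' | h'
      · left; rw [h, h']
      · right; left; rw [h, h']
    · right; right; exact h
  rcases hz with hz | hz | hz
  · obtain ⟨f, hf, q, hq, hlt⟩ := pair_bound P.pp hp2 hT0 hstab h0 hA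
    refine ⟨f, by tauto, q, hq, ?_⟩
    have e1 : |0 - fA P / 4| = fz P / 4 := by
      rw [hz, zero_sub, abs_neg, abs_div]; norm_num
    rwa [e1] at hlt
  · obtain ⟨f, hf, q, hq, hlt⟩ := pair_bound P.pp hp2 hT0 hstab h0 hB
    refine ⟨f, by tauto, q, hq, ?_⟩
    have e1 : |0 - -fB P / 4| = fz P / 4 := by
      rw [hz, zero_sub, abs_neg, abs_div, abs_neg]; norm_num
    rwa [e1] at hlt
  · obtain ⟨f, hf, q, hq, hlt⟩ := pair_bound P.pp hp2 hT0 hstab hA hB
    refine ⟨f, by tauto, q, hq, ?_⟩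
    have e1 : |fA P / 4 - -fB P / 4| = fz P / 4 := by
      rw [hz, ← fA_add_fB]
      have : fA P / 4 - -fB P / 4 = (fA P + fB P) / 4 := by ring
      rw [this, abs_div]; norm_num
    rwa [e1] at hlt

end

end Fermat.Agent.S12.Real
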