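import Fermat.Agent.S12.Real.Perm
import Fermat.Prelude.Def_GaloisRep_ComplexConjugation

/-!
# S12 / Real / Conj : the real place

`ι = complexEmbedding : Qb →ₐ[ℚ] ℂ`, `c = complexConjugation ∈ G_ℚ`, `ι (c x) = conj (ι x)`.
If `⟨T0⟩` (of odd prime order `p`) is stable under `c` then `c = s = ± 1` on it, all `x(k T0)` are real and `yc(k T0)²` is real of sign `s`.
The duplication formula `(x(2T) - e) yc(T)² = ((x(T) - e)² - κ)²` shows that `x(2T) - e` has the sign `s` for every rational centre `e`.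
-/

set_option autoImplicit false

open WeierstrassCurve WeierstrassCurve.Affine

namespace Fermat.Agent.S12.Real

open Fermat.Agent.S13 (Qb GQ)
open Fermat.Agent.S05 (xc yc D2 Centre)

noncomputable section

variable {W' : WeierstrassCurve ℚ}

local notation "ι" => complexEmbedding
local notation "cc" => (complexConjugation : GQ)

theorem cc_cc_smul (T : (W'⁄Qb).Point) : cc • (cc • T) = T := by
  rw [← mul_smul, complexConjugation_mul_self, one_smul]

/-- `c = ± 1` on a stable line. -/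
theorem exists_sign {p : ℕ} (hp : p.Prime) {T0 : (W'⁄Qb).Point} (hT0 : addOrderOf T0 = p)
    {m : ℕ} (hm : cc • T0 = m • T0) :
    ∃ s : ℤ, (s = 1 ∨ s = -1) ∧ ∀ k : ℕ, cc • (k • T0) = s • (k • T0) := by
  have h1 : (m * m) • T0 = T0 := by
    rw [mul_nsmul, ← hm, ← smul_nsmul, ← hm, cc_cc_smul]
  have h2 : (((m : ℤ) - 1) * ((m : ℤ) + 1)) • T0 = 0 := by
    have e : ((m : ℤ) - 1) * ((m : ℤ) + 1) = ((m * m : ℕ) : ℤ) - 1 := by push_cast; ring
    rw [e, sub_smul, natCast_zsmul, h1, one_smul, sub_self]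
  rw [← addOrderOf_dvd_iff_zsmul_eq_zero, hT0] at h2
  have key : ∀ s : ℤ, (p : ℤ) ∣ (m : ℤ) - s → ∀ k : ℕ, cc • (k • T0) = s • (k • T0) := by
    intro s hs k
    rw [← hT0, addOrderOf_dvd_iff_zsmul_eq_zero, sub_smul, sub_eq_zero, natCast_zsmul] at hs
    rw [smul_nsmul, hm, hs, smul_comm]
  rcases (Nat.prime_iff_prime_int.1 hp).dvd_or_dvd h2 with h | h
  · exact ⟨1, Or.inl rfl, key 1 h⟩
  · exact ⟨-1, Or.inr rfl, key (-1) (by simpa using h)⟩

theorem xc_sign_smul {s : ℤ} (hs : s = 1 ∨ s = -1) (T : (W'⁄Qb).Point) : xc (s • T) = xc T := by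
  rcases hs with rfl | rfl
  · rw [one_smul]
  · rw [neg_one_zsmul, Fermat.Agent.S05.xc_neg]

theorem yc_sign_smul {s : ℤ} (hs : s = 1 ∨ s = -1) (T : (W'⁄Qb).Point) :
    yc (s • T) = (s : Qb) * yc T := by
  rcases hs with rfl | rfl
  · rw [one_smul, Int.cast_one, one_mul]
  · rw [neg_one_zsmul, Fermat.Agent.S05.yc_neg]; simp

/-- `x(T)` is real. -/
theorem exists_real_xc {s : ℤ} (hs : s = 1 ∨ s = -1) {T : (W'⁄Qb).Point} (hT : cc • T = s • T) :
    ∃ r : ℝ, ι (xc T) = (r : ℂ) := by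
  rw [← Complex.conj_eq_iff_real, ← complexEmbedding_complexConjugation, ← xc_smul, hT,
    xc_sign_smul hs]

/-- `yc(T)²` is real of sign `s`. -/
theorem exists_real_yc_sq {s : ℤ} (hs : s = 1 ∨ s = -1) {T : (W'⁄Qb).Point} (hT : cc • T = s • T)
    (hy : yc T ≠ 0) : ∃ t : ℝ, t ≠ 0 ∧ ι (yc T) ^ 2 = (((s : ℝ) * t ^ 2 : ℝ) : ℂ) := by
  have h1 : (starRingEnd ℂ) (ι (yc T)) = (s : ℂ) * ι (yc T) := by
    rw [← complexEmbedding_complexConjugation, ← yc_smul, hT, yc_sign_smul hs, map_mul, map_intCast]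
  have h0 : ι (yc T) ≠ 0 := (map_ne_zero _).2 hy
  rcases hs with rfl | rfl
  · rw [Int.cast_one, one_mul, Complex.conj_eq_iff_real] at h1
    obtain ⟨t, ht⟩ := h1
    refine ⟨t, ?_, ?_⟩
    · rintro rfl
      exact h0 (by rw [ht, Complex.ofReal_zero])
    · rw [ht]; push_cast; ring
  · have hre : (ι (yc T)).re = 0 := by
      have := congrArg Complex.re h1
      simp at this
      linarith
    have hw : ι (yc T) = ((ι (yc T)).im : ℂ) * Complex.I := by
      apply Complex.ext <;> simp [hre]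
    refine ⟨(ι (yc T)).im, ?_, ?_⟩
    · intro h
      rw [h] at hw
      exact h0 (by rw [hw]; simp)
    · conv_lhs => rw [hw]
      rw [mul_pow, Complex.I_sq]; push_cast; ring

/-- **Sign of `x(2T) - e`.** -/
theorem sign_dbl {e κ β : ℚ}
    (hc : Centre (W'⁄Qb) (algebraMap ℚ Qb e) (algebraMap ℚ Qb κ) (algebraMap ℚ Qb β))
    {s : ℤ} (hs : s = 1 ∨ s = -1) {T : (W'⁄Qb).Point} (hT : cc • T = s • T) (h4 : 4 • T ≠ 0)
    {r : ℝ} (hr : ι (xc (T + T)) = (r : ℂ)) : 0 < (s : ℝ) * (r - e) := by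
  have h2 : T + T ≠ 0 := by
    intro h
    apply h4
    have : 4 • T = (T + T) + (T + T) := by abel
    rw [this, h, add_zero]
  have hT0 : T ≠ 0 := by
    rintro rfl
    exact h2 (add_zero _)
  have hy : yc T ≠ 0 := fun h => h2 (Fermat.Agent.S05.add_self_eq_zero_of_yc h)
  obtain ⟨r1, hr1⟩ := exists_real_xc hs hT
  obtain ⟨t, ht0, ht⟩ := exists_real_yc_sq hs hT hy
  have hd := hc.xi_dbl h2
  rw [← hc.D2_id, ← Fermat.Agent.S05.yc_sq T hT0] at hd
  have hd' := congrArg ι hd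
  simp only [map_mul, map_sub, map_pow, AlgHom.commutes, hr, hr1, ht] at hd'
  have hd'' : (r - e) * ((s : ℝ) * t ^ 2) = ((r1 - e) ^ 2 - κ) ^ 2 := by
    apply Complex.ofReal_injective
    push_cast
    push_cast at hd'
    simpa using hd'
  have hne : r - e ≠ 0 := by
    intro h
    have hx : xc (T + T) = algebraMap ℚ Qb e := by
      apply (ι).toRingHom.injective
      show ι (xc (T + T)) = ι (algebraMap ℚ Qb e)
      rw [hr, AlgHom.commutes]
      have : r = e := by linarith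
      rw [this]; simp
    have hy2 : yc (T + T) = 0 := by
      have := Fermat.Agent.S05.yc_sq (T + T) h2
      rw [hc.D2_id, hx, sub_self, zero_mul] at this
      exact pow_eq_zero_iff (two_ne_zero) |>.1 this
    apply h4
    have : 4 • T = (T + T) + (T + T) := by abel
    rw [this]
    exact Fermat.Agent.S05.add_self_eq_zero_of_yc hy2
  have ht2 : 0 < t ^ 2 := by positivity
  have h5 : 0 ≤ ((s : ℝ) * (r - e)) * t ^ 2 := by
    have : ((s : ℝ) * (r - e)) * t ^ 2 = ((r1 - e) ^ 2 - κ) ^ 2 := by rw [← hd'']; ring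
    rw [this]; positivity
  have h6 : 0 ≤ (s : ℝ) * (r - e) := nonneg_of_mul_nonneg_left h5 ht2
  have hs0 : (s : ℝ) ≠ 0 := by
    rcases hs with rfl | rfl <;> simp
  exact lt_of_le_of_ne h6 (mul_ne_zero hs0 hne).symm

end

end Fermat.Agent.S12.Real
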