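import Fermat.Agent.S12.Real.Conj

/-!
# S12 / Real / Far : all `x(k T0)` lie beyond all rational 2-torsion abscissas, on the same side

Consequence: for two rational centres `e ≠ e'` one of them, `e_far`, satisfies `|x(k T0) - e_far| > |e - e'|` for all `0 < k < p`,
hence `|Π_{e_far}| > |e - e'| ^ (p - 1)`.
-/

set_option autoImplicit false

open WeierstrassCurve WeierstrassCurve.Affine

namespace Fermat.Agent.S12.Real

open Fermat.Agent.S13 (Qb GQ)
open Fermat.Agent.S05 (xc yc D2 Centre)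

noncomputable section

variable {W' : WeierstrassCurve ℚ}

local notation "ι" => complexEmbedding
local notation "cc" => (complexConjugation : GQ)

/-- `e` is the abscissa of a rational point of order 2 (with its constants `κ`, `β`). -/
def IsCentre (W' : WeierstrassCurve ℚ) (e : ℚ) : Prop :=
  ∃ κ β : ℚ, Centre (W'⁄Qb) (algebraMap ℚ Qb e) (algebraMap ℚ Qb κ) (algebraMap ℚ Qb β)

/-- **The sign theorem.** -/
theorem sign_line {p : ℕ} (hp : p.Prime) (hp2 : p ≠ 2) {T0 : (W'⁄Qb).Point}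
    (hT0 : addOrderOf T0 = p) {m : ℕ} (hm : cc • T0 = m • T0) :
    ∃ s : ℤ, (s = 1 ∨ s = -1) ∧ ∀ k ∈ Finset.Ico 1 p, ∃ r : ℝ, ι (xc (k • T0)) = (r : ℂ) ∧
      ∀ e : ℚ, IsCentre W' e → 0 < (s : ℝ) * (r - e) := by
  obtain ⟨s, hs, hsk⟩ := exists_sign hp hT0 hm
  refine ⟨s, hs, fun k hk => ?_⟩
  obtain ⟨r, hr⟩ := exists_real_xc hs (hsk k)
  refine ⟨r, hr, ?_⟩
  rintro e ⟨κ, β, hc⟩
  rw [Finset.mem_Ico] at hk
  have hpT : p • T0 = 0 := hT0 ▸ addOrderOf_nsmul_eq_zero T0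
  obtain ⟨j, hj⟩ := hp.odd_of_ne_two hp2
  -- `k T0 = 2 (k (j+1) T0)`
  have h2 : (k * (j + 1)) • T0 + (k * (j + 1)) • T0 = k • T0 := by
    have e1 : k * (j + 1) + k * (j + 1) = k + p * k := by rw [hj]; ring
    rw [← add_nsmul, e1, add_nsmul, mul_nsmul, hpT, nsmul_zero, add_zero]
  have h4 : 4 • ((k * (j + 1)) • T0) ≠ 0 := by
    have e1 : 4 • ((k * (j + 1)) • T0) =
        ((k * (j + 1)) • T0 + (k * (j + 1)) • T0) + ((k * (j + 1)) • T0 + (k * (j + 1)) • T0) := by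
      abel
    rw [e1, h2, ← add_nsmul, Ne, ← addOrderOf_dvd_iff_nsmul_eq_zero, hT0]
    intro hd
    have hd' : p ∣ 2 * k := by rwa [two_mul]
    rcases hp.dvd_mul.1 hd' with h | h
    · exact hp2 ((Nat.prime_dvd_prime_iff_eq hp Nat.prime_two).1 h)
    · exact absurd (Nat.le_of_dvd (by omega) h) (by omega)
  exact sign_dbl hc hs (hsk _) h4 (by rw [h2]; exact hr)

/-- **The far root.** -/
theorem exists_far {p : ℕ} (hp : p.Prime) (hp2 : p ≠ 2) {T0 : (W'⁄Qb).Point}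
    (hT0 : addOrderOf T0 = p) {m : ℕ} (hm : cc • T0 = m • T0) {e e' : ℚ}
    (he : IsCentre W' e) (he' : IsCentre W' e') :
    ∃ f : ℚ, (f = e ∨ f = e') ∧ ∀ k ∈ Finset.Ico 1 p, ∃ r : ℝ, ι (xc (k • T0)) = (r : ℂ) ∧
      |(e : ℝ) - e'| < |r - f| := by
  obtain ⟨s, hs, h⟩ := sign_line hp hp2 hT0 hm
  by_cases hle : (s : ℝ) * e ≤ (s : ℝ) * e'
  · refine ⟨e, Or.inl rfl, fun k hk => ?_⟩
    obtain ⟨r, hr, hre⟩ := h k hk
    refine ⟨r, hr, ?_⟩
    have h1 := hre e he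
    have h2 := hre e' he'
    rcases hs with rfl | rfl
    · simp only [Int.cast_one, one_mul] at h1 h2 hle
      rw [abs_of_pos h1, abs_of_nonpos (by linarith)]
      linarith
    · simp only [Int.cast_neg, Int.cast_one, neg_mul, one_mul] at h1 h2 hle
      rw [abs_of_neg (by linarith : r - e < 0), abs_of_nonneg (by linarith)]
      linarith
  · refine ⟨e', Or.inr rfl, fun k hk => ?_⟩
    obtain ⟨r, hr, hre⟩ := h k hk
    refine ⟨r, hr, ?_⟩
    have h1 := hre e he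
    have h2 := hre e' he'
    rw [not_le] at hle
    rcases hs with rfl | rfl
    · simp only [Int.cast_one, one_mul] at h1 h2 hle
      rw [abs_of_pos h2, abs_of_nonneg (by linarith)]
      linarith
    · simp only [Int.cast_neg, Int.cast_one, neg_mul, one_mul] at h1 h2 hle
      rw [abs_of_neg (by linarith : r - e' < 0), abs_of_nonpos (by linarith)]
      linarith

/-- From the pointwise bound to the bound for the product. -/
theorem abs_gt_of_far {p : ℕ} (hp : 2 ≤ p) {T0 : (W'⁄Qb).Point} {f q : ℚ} {d : ℝ} (hd : 0 ≤ d)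
    (h : ∀ k ∈ Finset.Ico 1 p, ∃ r : ℝ, ι (xc (k • T0)) = (r : ℂ) ∧ d < |r - f|)
    (hq : Pi p T0 f = algebraMap ℚ Qb q) : d ^ (p - 1) < |(q : ℝ)| := by
  choose! r hr hrd using h
  have h1 : (q : ℝ) = ∏ k ∈ Finset.Ico 1 p, (r k - f) := by
    apply Complex.ofReal_injective
    have h2 := congrArg ι hq
    rw [AlgHom.commutes, Pi, map_prod] at h2
    have h3 : (algebraMap ℚ ℂ) q = ((q : ℝ) : ℂ) := by simp
    rw [← h3, ← h2, Complex.ofReal_prod]
    refine Finset.prod_congr rfl (fun k hk => ?_)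
    rw [map_sub, hr k hk, AlgHom.commutes]
    simp
  rw [h1, Finset.abs_prod]
  have hcard : (Finset.Ico 1 p).card = p - 1 := Nat.card_Ico 1 p
  rcases hd.eq_or_lt with rfl | hd0
  · rw [zero_pow (by omega)]
    exact Finset.prod_pos (fun k hk => (hrd k hk))
  · rw [← hcard, ← Finset.prod_const]
    exact Finset.prod_lt_prod_of_nonempty (fun _ _ => hd0) hrd
      ⟨1, Finset.mem_Ico.2 ⟨le_rfl, by omega⟩⟩

/-- **Step 1, general form.**  For two rational centres `e`, `e'` one of the two products `Π_e`, `Π_e'` is a rational number of absolute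
value `> |e - e'| ^ (p - 1)`. -/
theorem pair_bound {p : ℕ} (hp : p.Prime) (hp2 : p ≠ 2) {T0 : (W'⁄Qb).Point}
    (hT0 : addOrderOf T0 = p) (hstab : ∀ σ : GQ, ∃ m : ℕ, σ • T0 = m • T0) {e e' : ℚ}
    (he : IsCentre W' e) (he' : IsCentre W' e') :
    ∃ f : ℚ, (f = e ∨ f = e') ∧ ∃ q : ℚ, Pi p T0 f = algebraMap ℚ Qb q ∧
      |e - e'| ^ (p - 1) < |q| := by
  obtain ⟨m, hm⟩ := hstab cc
  obtain ⟨f, hf, h⟩ := exists_far hp hp2 hT0 hm he he'
  obtain ⟨q, hq⟩ := Pi_mem_rat hp hT0 hstab f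
  refine ⟨f, hf, q, hq, ?_⟩
  have := abs_gt_of_far hp.two_le (abs_nonneg _) h hq
  exact_mod_cast this

end

end Fermat.Agent.S12.Real
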