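import Fermat.Agent.S13.LocFrey
import Fermat.Agent.S13.LocRational

/-!
# S12 / Real / Perm : products over the nonzero points of a Galois stable line

`T0` a point of prime order `p` of `E = W'⁄Qb` (`W'` over `ℚ`) such that `⟨T0⟩` is Galois stable.  Products over `⟨T0⟩ \ 0` are written
`∏ k ∈ Finset.Ico 1 p, f (k • T0)`.
* `prod_perm`     : such a product does not change if `T0` is replaced by `m • T0`, `p ∤ m`;
* `prod_mem_rat`  : if `f` is Galois equivariant the product is rational;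
* `Pi p T0 e = ∏ (x(k T0) - e)`, `Pi_mem_rat`.
-/

set_option autoImplicit false

open WeierstrassCurve WeierstrassCurve.Affine

namespace Fermat.Agent.S12.Real

open Fermat.Agent.S13 (Qb GQ)
open Fermat.Agent.S05 (xc yc)

/-- `k ↦ k * m % p` permutes `Ico 1 p`. -/
theorem prod_perm {G M : Type*} [AddCommGroup G] [CommMonoid M] {p : ℕ} (hp : p.Prime) {T : G}
    (hT : p • T = 0) {m : ℕ} (hm : ¬ p ∣ m) (f : G → M) :
    ∏ k ∈ Finset.Ico 1 p, f (k • (m • T)) = ∏ k ∈ Finset.Ico 1 p, f (k • T) := by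
  have key : ∀ k : ℕ, k • (m • T) = ((k * m) % p) • T := by
    intro k
    rw [smul_smul]
    conv_lhs => rw [← Nat.mod_add_div (k * m) p]
    rw [add_nsmul, mul_nsmul, hT, smul_zero, add_zero]
  have hmaps : Set.MapsTo (fun k => (k * m) % p) (Finset.Ico 1 p : Set ℕ) (Finset.Ico 1 p : Set ℕ) := by
    intro k hk
    simp only [Finset.coe_Ico, Set.mem_Ico] at hk ⊢
    refine ⟨?_, Nat.mod_lt _ hp.pos⟩
    rw [Nat.one_le_iff_ne_zero]
    intro h
    rcases (hp.dvd_mul).1 (Nat.dvd_of_mod_eq_zero h) with h | h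
    · exact absurd (Nat.le_of_dvd (by omega) h) (by omega)
    · exact hm h
  have hinj : Set.InjOn (fun k => (k * m) % p) (Finset.Ico 1 p : Set ℕ) := by
    intro k hk k' hk' h
    simp only [Finset.coe_Ico, Set.mem_Ico] at hk hk'
    have h1 : k * m ≡ k' * m [MOD p] := h
    have hcop : Nat.gcd p m = 1 := (Nat.Prime.coprime_iff_not_dvd hp).2 hm
    exact (Nat.ModEq.cancel_right_of_coprime hcop h1).eq_of_lt_of_lt hk.2 hk'.2
  refine Finset.prod_nbij (fun k => (k * m) % p) hmaps hinj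
    (Finset.surjOn_of_injOn_of_card_le _ hmaps hinj le_rfl) (fun k _ => by rw [key])

noncomputable section

variable {W' : WeierstrassCurve ℚ}

theorem smul_nsmul (σ : GQ) (k : ℕ) (T : (W'⁄Qb).Point) : σ • (k • T) = k • (σ • T) :=
  map_nsmul (DistribSMul.toAddMonoidHom (W'⁄Qb).Point σ) k T

theorem xc_smul (σ : GQ) (T : (W'⁄Qb).Point) : xc (σ • T) = σ (xc T) :=
  Fermat.Agent.S05.xc_map W' σ T

theorem yc_smul (σ : GQ) (T : (W'⁄Qb).Point) : yc (σ • T) = σ (yc T) :=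
  Fermat.Agent.S05.yc_map W' σ T

theorem smul_ne_zero (σ : GQ) {T : (W'⁄Qb).Point} (hT : T ≠ 0) : σ • T ≠ 0 :=
  Fermat.Agent.S05.map_ne_zero' W' σ T hT

/-- If `σ • T0 = m • T0` and `T0 ≠ 0` has order `p` then `p ∤ m`. -/
theorem not_dvd_of_smul_eq {p : ℕ} {T0 : (W'⁄Qb).Point} (hT0 : addOrderOf T0 = p) (hp : p.Prime)
    {σ : GQ} {m : ℕ} (h : σ • T0 = m • T0) : ¬ p ∣ m := by
  intro hd
  have h0 : T0 ≠ 0 := by
    rintro rfl
    rw [addOrderOf_zero] at hT0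
    exact hp.one_lt.ne hT0
  rw [← hT0] at hd
  rw [addOrderOf_dvd_iff_nsmul_eq_zero.1 hd] at h
  exact smul_ne_zero σ h0 h

/-- A Galois equivariant product over a Galois stable line is rational. -/
theorem prod_mem_rat {p : ℕ} (hp : p.Prime) {T0 : (W'⁄Qb).Point} (hT0 : addOrderOf T0 = p)
    (hstab : ∀ σ : GQ, ∃ m : ℕ, σ • T0 = m • T0) (f : (W'⁄Qb).Point → Qb)
    (hf : ∀ (σ : GQ) (T : (W'⁄Qb).Point), σ (f T) = f (σ • T)) :
    ∃ q : ℚ, ∏ k ∈ Finset.Ico 1 p, f (k • T0) = algebraMap ℚ Qb q := by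
  have hpT : p • T0 = 0 := hT0 ▸ addOrderOf_nsmul_eq_zero T0
  obtain ⟨q, hq⟩ := Fermat.Agent.S13.Loc.Rational.mem_rat_of_fixed
    (∏ k ∈ Finset.Ico 1 p, f (k • T0)) (fun σ => by
      obtain ⟨m, hm⟩ := hstab σ
      rw [map_prod, ← prod_perm hp hpT (not_dvd_of_smul_eq hT0 hp hm) f]
      refine Finset.prod_congr rfl (fun k _ => ?_)
      exact (hf σ _).trans (by rw [smul_nsmul, hm]))
  exact ⟨q, hq.symm⟩

/-- `Π_e = ∏_{0 < k < p} (x(k T0) - e)`. -/
def Pi (p : ℕ) (T0 : (W'⁄Qb).Point) (e : ℚ) : Qb :=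
  ∏ k ∈ Finset.Ico 1 p, (xc (k • T0) - algebraMap ℚ Qb e)

theorem Pi_mem_rat {p : ℕ} (hp : p.Prime) {T0 : (W'⁄Qb).Point} (hT0 : addOrderOf T0 = p)
    (hstab : ∀ σ : GQ, ∃ m : ℕ, σ • T0 = m • T0) (e : ℚ) :
    ∃ q : ℚ, Pi p T0 e = algebraMap ℚ Qb q :=
  prod_mem_rat hp hT0 hstab (fun T => xc T - algebraMap ℚ Qb e) (fun σ T => by
    rw [map_sub, xc_smul, σ.commutes])

end

end Fermat.Agent.S12.Real
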